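import Fermat.Agent.CFT.SM.Defs

/-!
# CFT / SM : the CORE of the Shapiro-Mackey layer.  Theorems (degrees 1 and 2, any coefficients).
-/

set_option autoImplicit false
set_option linter.unusedSectionVars false

namespace Fermat.Agent.CFT.SM

namespace OrbitData

variable {k : Type} [CommRing k] {Γ X O : Type} [Group Γ] [MulAction Γ X]
  {V : Type} [AddCommGroup V] [Module k V] (od : OrbitData Γ X O)
  {ρ : Representation k Γ V} {P : Representation k Γ (X → V)} (hP : IsDiag ρ P)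
  {𝒱 : Levels Γ}

lemma inv_smul_pt {o : O} {a : Γ} (ha : a ∈ od.H o) : a⁻¹ • od.pt o = od.pt o := by
  rw [inv_smul_eq_iff]; exact ((od.mem_H o a).1 ha).symm

lemma t_inv_smul (x : X) : (od.t x)⁻¹ • x = od.pt (od.idx x) := by
  rw [inv_smul_eq_iff, od.t_smul]

lemma rho_mul_t (ρ : Representation k Γ V) (γ : Γ) (x : X) (v : V) :
    ρ γ (ρ (od.t (γ⁻¹ • x)) v) = ρ (od.t x) (ρ (od.j γ x) v) := by
  rw [← Module.End.mul_apply, ← map_mul, ← od.t_mul_j, map_mul, Module.End.mul_apply]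

/-! ### `sh` -/

include hP in
theorem sh1_isZ1On {f : Γ → X → V} (hf : d12 P f = 0) (o : O) :
    IsZ1On ρ (od.H o) (od.sh1 k V f o) := by
  intro a ha b hb
  have h := congrFun (congrFun hf (a, b)) (od.pt o)
  simp only [d12_apply, Pi.add_apply, Pi.sub_apply, Pi.zero_apply, hP a, od.inv_smul_pt ha] at h
  simpa using h

include hP in
theorem sh1_isB1On {f : Γ → X → V} (hf : f ∈ B1 P) (o : O) :
    IsB1On ρ (od.H o) (od.sh1 k V f o) := by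
  obtain ⟨F, rfl⟩ := hf
  refine ⟨F (od.pt o), fun a ha => ?_⟩
  simp only [sh1_apply, d01_apply, Pi.sub_apply, hP a, od.inv_smul_pt ha]

theorem sh1_isLC1On {f : Γ → X → V} (hf : f ∈ C1 k (X → V) 𝒱) (o : O) :
    IsLC1On 𝒱 (od.H o) (od.sh1 k V f o) := by
  obtain ⟨W, hW, h⟩ := hf
  exact ⟨W, hW, fun a _ w hw _ => congrFun (h a w hw) _⟩

include hP in
theorem sh2_isZ2On {f : Γ × Γ → X → V} (hf : d23 P f = 0) (o : O) :
    IsZ2On ρ (od.H o) (od.sh2 k V f o) := by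
  intro a ha b hb d hd
  have h := congrFun (congrFun hf (a, b, d)) (od.pt o)
  simp only [d23_apply, Pi.add_apply, Pi.sub_apply, Pi.zero_apply, hP a, od.inv_smul_pt ha] at h
  simpa using h

include hP in
theorem sh2_isB2On {f : Γ × Γ → X → V} (hf : f ∈ B2 𝒱 P) (o : O) :
    IsB2On 𝒱 ρ (od.H o) (od.sh2 k V f o) := by
  obtain ⟨e, he, rfl⟩ := hf
  refine ⟨od.sh1 k V e o, od.sh1_isLC1On he o, fun a ha b hb => ?_⟩
  simp only [sh2_apply, sh1_apply, d12_apply, Pi.sub_apply, Pi.add_apply, hP a,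
    od.inv_smul_pt ha]

theorem sh2_isLC2On {f : Γ × Γ → X → V} (hf : f ∈ C2 k (X → V) 𝒱) (o : O) :
    IsLC2On 𝒱 (od.H o) (od.sh2 k V f o) := by
  obtain ⟨W, hW, h⟩ := hf
  exact ⟨W, hW, fun a _ b _ w hw w' hw' _ _ => congrFun (h a b w w' hw hw') _⟩

/-! ### `ext` -/

include hP in
theorem d01_ext0 (m : O → V) : d01 P (od.ext0 ρ m) = od.ext1 ρ (fun o => d01 ρ (m o)) := by
  funext γ x
  simp only [d01_apply, Pi.sub_apply, hP γ, ext0_apply, ext1_apply, od.idx_smul, map_sub,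
    od.rho_mul_t]

include hP in
theorem d12_ext1_apply (c : O → Γ → V) (γ δ : Γ) (x : X) :
    d12 P (od.ext1 ρ c) (γ, δ) x
      = ρ (od.t x) (d12 ρ (c (od.idx x)) (od.j γ x, od.j δ (γ⁻¹ • x))) := by
  simp only [d12_apply, Pi.sub_apply, Pi.add_apply, hP γ, ext1_apply, od.idx_smul, map_sub,
    map_add, od.rho_mul_t, od.j_mul]

include hP in
theorem d23_ext2_apply (c : O → Γ × Γ → V) (γ δ ε : Γ) (x : X) :
    d23 P (od.ext2 ρ c) (γ, δ, ε) x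
      = ρ (od.t x) (d23 ρ (c (od.idx x))
          (od.j γ x, od.j δ (γ⁻¹ • x), od.j ε (δ⁻¹ • γ⁻¹ • x))) := by
  simp only [d23_apply, Pi.sub_apply, Pi.add_apply, hP γ, ext2_apply, od.idx_smul, map_sub,
    map_add, od.rho_mul_t, od.j_mul, mul_inv_rev, mul_smul]

include hP in
theorem d12_ext1 {c : O → Γ → V} (hc : ∀ o, IsZ1On ρ (od.H o) (c o)) :
    d12 P (od.ext1 ρ c) = 0 := by
  funext ⟨γ, δ⟩ x
  rw [od.d12_ext1_apply hP, hc _ _ (od.j_mem γ x) _ (od.j_mem' γ δ x), map_zero]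
  rfl

include hP in
theorem ext1_mem_B1 {c : O → Γ → V} (hc : ∀ o, IsB1On ρ (od.H o) (c o)) :
    od.ext1 ρ c ∈ B1 P := by
  choose m hm using hc
  refine ⟨od.ext0 ρ m, ?_⟩
  rw [od.d01_ext0 hP]
  funext γ x
  simp only [ext1_apply, hm _ _ (od.j_mem γ x)]

lemma j_mul_level {W : Subgroup Γ} [W.Normal] (hWX : ∀ w ∈ W, ∀ x : X, w • x = x) (γ : Γ)
    {w : Γ} (hw : w ∈ W) (x : X) :
    (γ * w)⁻¹ • x = γ⁻¹ • x ∧ ∃ w' ∈ W, w' ∈ od.H (od.idx x) ∧ od.j (γ * w) x = od.j γ x * w' := by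
  have h1 : (γ * w)⁻¹ • x = γ⁻¹ • x := by
    rw [mul_inv_rev, mul_smul, hWX _ (W.inv_mem hw)]
  refine ⟨h1, (od.t (γ⁻¹ • x))⁻¹ * w * od.t (γ⁻¹ • x), ?_, ?_, ?_⟩
  · have := (inferInstance : W.Normal).conj_mem w hw (od.t (γ⁻¹ • x))⁻¹
    simpa using this
  · have h2 := (inferInstance : W.Normal).conj_mem w hw (od.t (γ⁻¹ • x))⁻¹
    rw [od.mem_H]
    apply hWX
    simpa using h2
  · simp only [j, h1]; group

/-- a common level for finitely many levels, acting trivially on `X` -/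
lemma exists_common_level [Finite O] (hX : ∃ W ∈ 𝒱.carrier, ∀ w ∈ W, ∀ x : X, w • x = x)
    (Wf : O → Subgroup Γ) (hWf : ∀ o, Wf o ∈ 𝒱.carrier) :
    ∃ W ∈ 𝒱.carrier, (∀ w ∈ W, ∀ x : X, w • x = x) ∧ ∀ o, W ≤ Wf o := by
  classical
  obtain ⟨W0, hW0, hW0X⟩ := hX
  have key : ∀ s : Finset O, ∃ W ∈ 𝒱.carrier, W ≤ W0 ∧ ∀ o ∈ s, W ≤ Wf o := by
    intro s
    induction s using Finset.induction_on with
    | empty => exact ⟨W0, hW0, le_rfl, by simp⟩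
    | insert a s _ ih =>
      obtain ⟨W, hW, h1, h2⟩ := ih
      obtain ⟨W', hW', h3, h4⟩ := 𝒱.directed W hW (Wf a) (hWf a)
      refine ⟨W', hW', h3.trans h1, fun o ho => ?_⟩
      rcases Finset.mem_insert.1 ho with rfl | ho
      · exact h4
      · exact h3.trans (h2 o ho)
  have := Fintype.ofFinite O
  obtain ⟨W, hW, h1, h2⟩ := key Finset.univ
  exact ⟨W, hW, fun w hw x => hW0X w (h1 hw) x, fun o => h2 o (Finset.mem_univ o)⟩

theorem ext1_mem_C1 [Finite O] (hX : ∃ W ∈ 𝒱.carrier, ∀ w ∈ W, ∀ x : X, w • x = x)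
    {c : O → Γ → V} (hc : ∀ o, IsLC1On 𝒱 (od.H o) (c o)) :
    od.ext1 ρ c ∈ C1 k (X → V) 𝒱 := by
  choose Wf hWf hcW using hc
  obtain ⟨W, hW, hWX, hle⟩ := exists_common_level hX Wf hWf
  have := 𝒱.normal W hW
  refine ⟨W, hW, fun γ w hw => ?_⟩
  funext x
  obtain ⟨-, w', hw', hw'H, hj⟩ := od.j_mul_level hWX γ hw x
  simp only [ext1_apply, hj, hcW _ _ (od.j_mem γ x) _ (hle _ hw') hw'H]

include hP in
theorem d23_ext2 {c : O → Γ × Γ → V} (hc : ∀ o, IsZ2On ρ (od.H o) (c o)) :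
    d23 P (od.ext2 ρ c) = 0 := by
  funext ⟨γ, δ, ε⟩ x
  have h3 : od.j ε (δ⁻¹ • γ⁻¹ • x) ∈ od.H (od.idx x) := by
    have := od.j_mem ε (δ⁻¹ • γ⁻¹ • x)
    rwa [od.idx_smul, od.idx_smul] at this
  rw [od.d23_ext2_apply hP, hc _ _ (od.j_mem γ x) _ (od.j_mem' γ δ x) _ h3, map_zero]
  rfl

include hP in
theorem ext2_mem_B2 [Finite O] (hX : ∃ W ∈ 𝒱.carrier, ∀ w ∈ W, ∀ x : X, w • x = x)
    {c : O → Γ × Γ → V} (hc : ∀ o, IsB2On 𝒱 ρ (od.H o) (c o)) :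
    od.ext2 ρ c ∈ B2 𝒱 P := by
  choose e he hce using hc
  refine ⟨od.ext1 ρ e, od.ext1_mem_C1 hX he, ?_⟩
  funext ⟨γ, δ⟩ x
  rw [od.d12_ext1_apply hP, ext2_apply, hce _ _ (od.j_mem γ x) _ (od.j_mem' γ δ x)]

theorem ext2_mem_C2 [Finite O] (hX : ∃ W ∈ 𝒱.carrier, ∀ w ∈ W, ∀ x : X, w • x = x)
    {c : O → Γ × Γ → V} (hc : ∀ o, IsLC2On 𝒱 (od.H o) (c o)) :
    od.ext2 ρ c ∈ C2 k (X → V) 𝒱 := by
  choose Wf hWf hcW using hc
  obtain ⟨W, hW, hWX, hle⟩ := exists_common_level hX Wf hWf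
  have := 𝒱.normal W hW
  refine ⟨W, hW, fun γ δ w w₂ hw hw₂ => ?_⟩
  funext x
  obtain ⟨h1, w', hw', hw'H, hj⟩ := od.j_mul_level hWX γ hw x
  obtain ⟨-, w₂', hw₂', hw₂'H, hj₂⟩ := od.j_mul_level hWX δ hw₂ (γ⁻¹ • x)
  rw [od.idx_smul] at hw₂'H
  simp only [ext2_apply, hj, h1, hj₂,
    hcW _ _ (od.j_mem γ x) _ (od.j_mem' γ δ x) _ (hle _ hw') _ (hle _ hw₂') hw'H hw₂'H]

/-! ### `sh ∘ ext` -/

theorem sh1_ext1 (hn : od.Normalized) (c : O → Γ → V) (o : O) {a : Γ} (ha : a ∈ od.H o) :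
    od.sh1 k V (od.ext1 ρ c) o a = c o a := by
  simp only [sh1_apply, ext1_apply, od.idx_pt, hn o, map_one, Module.End.one_apply,
    od.j_pt hn ha]

theorem sh2_ext2 (hn : od.Normalized) (c : O → Γ × Γ → V) (o : O) {a b : Γ} (ha : a ∈ od.H o)
    (hb : b ∈ od.H o) : od.sh2 k V (od.ext2 ρ c) o (a, b) = c o (a, b) := by
  simp only [sh2_apply, ext2_apply, od.idx_pt, hn o, map_one, Module.End.one_apply,
    od.j_pt hn ha, od.inv_smul_pt ha, od.j_pt hn hb]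

/-! ### the homotopies -/

include hP in
theorem sub_ext1_sh1 {f : Γ → X → V} (hf : d12 P f = 0) :
    f - od.ext1 ρ (od.sh1 k V f) = d01 P (od.hom1 k V f) := by
  funext γ x
  have h1 := congrFun (congrFun hf (γ, od.t (γ⁻¹ • x))) x
  have h2 := congrFun (congrFun hf (od.t x, od.j γ x)) x
  simp only [d12_apply, Pi.add_apply, Pi.sub_apply, Pi.zero_apply, hP γ, hP (od.t x),
    od.t_inv_smul, od.t_mul_j] at h1 h2
  simp only [Pi.sub_apply, ext1_apply, sh1_apply, d01_apply, hP γ, hom1_apply, map_neg]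
  linear_combination (norm := abel) h1 - h2

include hP in
theorem sub_ext2_sh2 {f : Γ × Γ → X → V} (hf : d23 P f = 0) :
    f - od.ext2 ρ (od.sh2 k V f) = d12 P (od.hom2 k V f) := by
  funext ⟨γ, δ⟩ x
  have h1 := congrFun (congrFun hf (γ, δ, od.t (δ⁻¹ • γ⁻¹ • x))) x
  have h2 := congrFun (congrFun hf (γ, od.t (γ⁻¹ • x), od.j δ (γ⁻¹ • x))) x
  have h3 := congrFun (congrFun hf (od.t x, od.j γ x, od.j δ (γ⁻¹ • x))) x
  simp only [d23_apply, Pi.add_apply, Pi.sub_apply, Pi.zero_apply, hP γ, hP (od.t x),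
    od.t_inv_smul, od.t_mul_j] at h1 h2 h3
  simp only [Pi.sub_apply, Pi.add_apply, ext2_apply, sh2_apply, d12_apply, hP γ, hom2_apply,
    map_sub, od.j_mul, mul_inv_rev, mul_smul]
  linear_combination (norm := abel) -h1 + h2 - h3

theorem hom2_mem_C1 (hX : ∃ W ∈ 𝒱.carrier, ∀ w ∈ W, ∀ x : X, w • x = x)
    {f : Γ × Γ → X → V} (hf : f ∈ C2 k (X → V) 𝒱) : od.hom2 k V f ∈ C1 k (X → V) 𝒱 := by
  obtain ⟨W0, hW0, hW0X⟩ := hX
  obtain ⟨W1, hW1, hf⟩ := hf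
  obtain ⟨W, hW, h0, h1⟩ := 𝒱.directed W0 hW0 W1 hW1
  have := 𝒱.normal W hW
  refine ⟨W, hW, fun γ w hw => ?_⟩
  funext x
  obtain ⟨e1, w', hw', -, hj⟩ := od.j_mul_level (fun w hw x => hW0X w (h0 hw) x) γ hw x
  have a1 := hf γ (od.t (γ⁻¹ • x)) w 1 (h1 hw) (W1.one_mem)
  have a2 := hf (od.t x) (od.j γ x) 1 w' (W1.one_mem) (h1 hw')
  simp only [mul_one] at a1 a2
  simp only [hom2_apply, e1, hj, a1, a2]

/-! ### consequences -/

include hP in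
/-- injectivity of Shapiro in degree 1 -/
theorem mem_B1_of_sh1 {f : Γ → X → V} (hf : d12 P f = 0)
    (h : ∀ o, IsB1On ρ (od.H o) (od.sh1 k V f o)) : f ∈ B1 P := by
  have h1 := od.sub_ext1_sh1 hP hf
  have h2 : f = d01 P (od.hom1 k V f) + od.ext1 ρ (od.sh1 k V f) := by
    rw [← h1]; abel
  rw [h2]
  exact (B1 P).add_mem ⟨_, rfl⟩ (od.ext1_mem_B1 hP h)

include hP in
/-- injectivity of Shapiro in degree 2 -/
theorem mem_B2_of_sh2 [Finite O] (hX : ∃ W ∈ 𝒱.carrier, ∀ w ∈ W, ∀ x : X, w • x = x)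
    {f : Γ × Γ → X → V} (hf : f ∈ Z2 𝒱 P)
    (h : ∀ o, IsB2On 𝒱 ρ (od.H o) (od.sh2 k V f o)) : f ∈ B2 𝒱 P := by
  have h1 := od.sub_ext2_sh2 hP (LinearMap.mem_ker.1 hf.1)
  have h2 : f = d12 P (od.hom2 k V f) + od.ext2 ρ (od.sh2 k V f) := by
    rw [← h1]; abel
  rw [h2]
  exact (B2 𝒱 P).add_mem ⟨_, od.hom2_mem_C1 hX hf.2, rfl⟩ (od.ext2_mem_B2 hP hX h)

end OrbitData

end Fermat.Agent.CFT.SM
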