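import Fermat.Agent.CFT.F.Spec

/-!
# CFT / SM : the CORE of the Shapiro-Mackey layer.  Definitions.

`Γ` a group acting on a set `X`; `ρ : Representation k Γ V`; `P` the diagonal representation on
`X → V`, `(γ F)(x) = ρ γ (F (γ⁻¹ x))` (any `P` with `IsDiag ρ P`).
An `OrbitData Γ X O` is a choice of base points `pt o` (`o : O`, one for each orbit), of the orbit
index `idx x`, of transporters `t x : Γ` with `t x • pt (idx x) = x`, and of names `H o` for the
stabilisers of the base points (NOT assumed normal).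
The action groupoid `X ⋊ Γ` retracts onto `∐_o H o` by `(γ : γ⁻¹x → x) ↦ j γ x = (t x)⁻¹ γ t(γ⁻¹ x)`.

Cochains on a subgroup `H ≤ Γ` are represented by PLAIN functions on `Γ` (only the values on `H`
matter): `IsZ1On, IsB1On, IsLC1On, IsZ2On, IsB2On, IsLC2On`.  Adapters to `↥H` are in `SM/Adapter`.

* `sh`  : evaluation at the base points;
* `ext` : pull-back along the retraction (a strict chain map, `sh ∘ ext = id` on `H o` if `t (pt o) = 1`);
* `hom1`, `hom2` : the prism homotopies `f - ext (sh f) = d (hom f)` for cocycles `f`.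
-/

set_option autoImplicit false
set_option linter.unusedSectionVars false

namespace Fermat.Agent.CFT.SM

section Pred

variable {k : Type} [CommRing k] {Γ : Type} [Group Γ] {V : Type} [AddCommGroup V] [Module k V]

/-- `c` is a 1-cocycle on `H` -/
def IsZ1On (ρ : Representation k Γ V) (H : Subgroup Γ) (c : Γ → V) : Prop :=
  ∀ a ∈ H, ∀ b ∈ H, d12 ρ c (a, b) = 0

/-- `c` is a 1-coboundary on `H` -/
def IsB1On (ρ : Representation k Γ V) (H : Subgroup Γ) (c : Γ → V) : Prop :=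
  ∃ m : V, ∀ a ∈ H, c a = d01 ρ m a

/-- `c` is level-constant on `H` -/
def IsLC1On (𝒱 : Levels Γ) (H : Subgroup Γ) (c : Γ → V) : Prop :=
  ∃ W ∈ 𝒱.carrier, ∀ a ∈ H, ∀ w ∈ W, w ∈ H → c (a * w) = c a

/-- `c` is a 2-cocycle on `H` -/
def IsZ2On (ρ : Representation k Γ V) (H : Subgroup Γ) (c : Γ × Γ → V) : Prop :=
  ∀ a ∈ H, ∀ b ∈ H, ∀ d ∈ H, d23 ρ c (a, b, d) = 0

/-- `c` is level-constant on `H` -/
def IsLC2On (𝒱 : Levels Γ) (H : Subgroup Γ) (c : Γ × Γ → V) : Prop :=
  ∃ W ∈ 𝒱.carrier, ∀ a ∈ H, ∀ b ∈ H, ∀ w ∈ W, ∀ w' ∈ W, w ∈ H → w' ∈ H →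
    c (a * w, b * w') = c (a, b)

/-- `c` is, on `H`, the coboundary of a 1-cochain which is level-constant on `H` -/
def IsB2On (𝒱 : Levels Γ) (ρ : Representation k Γ V) (H : Subgroup Γ) (c : Γ × Γ → V) : Prop :=
  ∃ e : Γ → V, IsLC1On 𝒱 H e ∧ ∀ a ∈ H, ∀ b ∈ H, c (a, b) = d12 ρ e (a, b)

/-- `P` is the diagonal representation on `X → V` -/
def IsDiag {X : Type} [MulAction Γ X] (ρ : Representation k Γ V)
    (P : Representation k Γ (X → V)) : Prop :=
  ∀ (γ : Γ) (F : X → V) (x : X), P γ F x = ρ γ (F (γ⁻¹ • x))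

end Pred

/-- base points, orbit index, transporters and stabilisers for an action of `Γ` on `X` -/
structure OrbitData (Γ X O : Type) [Group Γ] [MulAction Γ X] where
  pt : O → X
  idx : X → O
  t : X → Γ
  H : O → Subgroup Γ
  t_smul : ∀ x, t x • pt (idx x) = x
  idx_smul : ∀ (γ : Γ) (x : X), idx (γ • x) = idx x
  idx_pt : ∀ o, idx (pt o) = o
  mem_H : ∀ (o : O) (γ : Γ), γ ∈ H o ↔ γ • pt o = pt o

namespace OrbitData

variable {Γ X O : Type} [Group Γ] [MulAction Γ X] (od : OrbitData Γ X O)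

/-- the retraction of the action groupoid onto the stabilisers -/
def j (γ : Γ) (x : X) : Γ := (od.t x)⁻¹ * γ * od.t (γ⁻¹ • x)

lemma j_mem (γ : Γ) (x : X) : od.j γ x ∈ od.H (od.idx x) := by
  rw [od.mem_H, j, mul_smul, mul_smul]
  have h1 : od.idx x = od.idx (γ⁻¹ • x) := (od.idx_smul _ _).symm
  have h2 : od.t (γ⁻¹ • x) • od.pt (od.idx x) = γ⁻¹ • x := by rw [h1, od.t_smul]
  rw [h2, smul_inv_smul, inv_smul_eq_iff, od.t_smul]

lemma j_mem' (γ δ : Γ) (x : X) : od.j δ (γ⁻¹ • x) ∈ od.H (od.idx x) := by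
  have := od.j_mem δ (γ⁻¹ • x)
  rwa [od.idx_smul] at this

lemma j_mul (γ δ : Γ) (x : X) : od.j (γ * δ) x = od.j γ x * od.j δ (γ⁻¹ • x) := by
  simp only [j, mul_inv_rev, mul_smul]
  group

lemma t_mul_j (γ : Γ) (x : X) : od.t x * od.j γ x = γ * od.t (γ⁻¹ • x) := by
  simp only [j]; group

/-- `t (pt o) = 1` for all base points -/
def Normalized : Prop := ∀ o, od.t (od.pt o) = 1

lemma j_pt (hn : od.Normalized) {o : O} {a : Γ} (ha : a ∈ od.H o) : od.j a (od.pt o) = a := by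
  have h1 : a⁻¹ • od.pt o = od.pt o := by
    rw [inv_smul_eq_iff]; exact ((od.mem_H o a).1 ha).symm
  simp [j, h1, hn o]

variable {k : Type} [CommRing k] {V : Type} [AddCommGroup V] [Module k V]
  (ρ : Representation k Γ V)

/-- `ext` in degree 0 -/
def ext0 : (O → V) →ₗ[k] (X → V) where
  toFun m x := ρ (od.t x) (m (od.idx x))
  map_add' _ _ := funext fun _ => by simp
  map_smul' _ _ := funext fun _ => by simp

/-- `ext` in degree 1 -/
def ext1 : (O → Γ → V) →ₗ[k] (Γ → X → V) where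
  toFun c γ x := ρ (od.t x) (c (od.idx x) (od.j γ x))
  map_add' _ _ := funext fun _ => funext fun _ => by simp
  map_smul' _ _ := funext fun _ => funext fun _ => by simp

/-- `ext` in degree 2 -/
def ext2 : (O → Γ × Γ → V) →ₗ[k] (Γ × Γ → X → V) where
  toFun c γ x := ρ (od.t x) (c (od.idx x) (od.j γ.1 x, od.j γ.2 (γ.1⁻¹ • x)))
  map_add' _ _ := funext fun _ => funext fun _ => by simp
  map_smul' _ _ := funext fun _ => funext fun _ => by simp

variable (k V) in
/-- `sh` in degree 0 -/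
def sh0 : (X → V) →ₗ[k] (O → V) where
  toFun m o := m (od.pt o)
  map_add' _ _ := rfl
  map_smul' _ _ := rfl

variable (k V) in
/-- `sh` in degree 1 -/
def sh1 : (Γ → X → V) →ₗ[k] (O → Γ → V) where
  toFun f o a := f a (od.pt o)
  map_add' _ _ := rfl
  map_smul' _ _ := rfl

variable (k V) in
/-- `sh` in degree 2 -/
def sh2 : (Γ × Γ → X → V) →ₗ[k] (O → Γ × Γ → V) where
  toFun f o a := f a (od.pt o)
  map_add' _ _ := rfl
  map_smul' _ _ := rfl

variable (k V) in
/-- the homotopy in degree 1 -/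
def hom1 : (Γ → X → V) →ₗ[k] (X → V) where
  toFun f x := - f (od.t x) x
  map_add' _ _ := funext fun _ => by simp [add_comm]
  map_smul' _ _ := funext fun _ => by simp

variable (k V) in
/-- the homotopy in degree 2 -/
def hom2 : (Γ × Γ → X → V) →ₗ[k] (Γ → X → V) where
  toFun f γ x := f (γ, od.t (γ⁻¹ • x)) x - f (od.t x, od.j γ x) x
  map_add' _ _ := funext fun _ => funext fun _ => by simp only [Pi.add_apply]; abel
  map_smul' _ _ := funext fun _ => funext fun _ => by simp [smul_sub]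

@[simp] lemma ext0_apply (m : O → V) (x : X) :
    od.ext0 ρ m x = ρ (od.t x) (m (od.idx x)) := rfl
@[simp] lemma ext1_apply (c : O → Γ → V) (γ : Γ) (x : X) :
    od.ext1 ρ c γ x = ρ (od.t x) (c (od.idx x) (od.j γ x)) := rfl
@[simp] lemma ext2_apply (c : O → Γ × Γ → V) (γ : Γ × Γ) (x : X) :
    od.ext2 ρ c γ x = ρ (od.t x) (c (od.idx x) (od.j γ.1 x, od.j γ.2 (γ.1⁻¹ • x))) := rfl
@[simp] lemma sh0_apply (m : X → V) (o : O) : od.sh0 k V m o = m (od.pt o) := rfl
@[simp] lemma sh1_apply (f : Γ → X → V) (o : O) (a : Γ) : od.sh1 k V f o a = f a (od.pt o) := rfl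
@[simp] lemma sh2_apply (f : Γ × Γ → X → V) (o : O) (a : Γ × Γ) :
    od.sh2 k V f o a = f a (od.pt o) := rfl
@[simp] lemma hom1_apply (f : Γ → X → V) (x : X) : od.hom1 k V f x = - f (od.t x) x := rfl
@[simp] lemma hom2_apply (f : Γ × Γ → X → V) (γ : Γ) (x : X) :
    od.hom2 k V f γ x = f (γ, od.t (γ⁻¹ • x)) x - f (od.t x, od.j γ x) x := rfl

end OrbitData

end Fermat.Agent.CFT.SM
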